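import Mathlib
import Fermat.Agent.LT.H767.AdeleCocompact
import Fermat.Agent.LT.H767.AdeleDiscrete

/-!
# Row LT, tower T3, leaf T3.03 (helper127): level sets and continuous characters

OFF-MAIN.  Mathlib + the adele basics of helper767 (byte-identical copies).

* `circle_eq_one_of_pow` : no small subgroups in the circle.
* `levelSet K d` : the open compact subgroup `d 𝒪̂` of the finite adeles.
* `exists_levelSet_subset` : the level sets form a basis of neighbourhoods of `0`.
* `exists_sub_mem_levelSet` : `𝔸_f = K + d 𝒪̂`.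
* `exists_level` : a continuous character of the adeles is trivial on some `0 × d 𝒪̂`.
-/

set_option autoImplicit false

open NumberField IsDedekindDomain IsDedekindDomain.HeightOneSpectrum

noncomputable section

namespace Fermat.Agent.LT.T3.H127

/-! ## No small subgroups -/

/-- Doubling of the defect: if `Re z ≥ 0` on the unit circle then
`1 - Re (z^2) ≥ 2 (1 - Re z)`. -/
theorem circle_defect (z : Circle) (h : 0 ≤ ((z : ℂ)).re) :
    2 * (1 - ((z : ℂ)).re) ≤ 1 - (((z * z : Circle) : ℂ)).re := by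
  have hn : ((z : ℂ)).re ^ 2 + ((z : ℂ)).im ^ 2 = 1 := by
    have := Circle.normSq_coe z
    rw [Complex.normSq_apply] at this
    nlinarith [this]
  have hre : (((z * z : Circle) : ℂ)).re = ((z : ℂ)).re ^ 2 - ((z : ℂ)).im ^ 2 := by
    rw [Circle.coe_mul, Complex.mul_re]; ring
  have hle : ((z : ℂ)).re ≤ 1 := by nlinarith [sq_nonneg ((z : ℂ)).im]
  rw [hre]
  nlinarith [sq_nonneg ((z : ℂ)).im]

/-- No small subgroups: an element of the circle all of whose `2^k`-th powers have positive real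
part is `1`. -/
theorem circle_eq_one_of_pow (z : Circle)
    (h : ∀ k : ℕ, 0 < (((z ^ (2 ^ k) : Circle) : ℂ)).re) : z = 1 := by
  have key : ∀ k : ℕ, 2 ^ k * (1 - ((z : ℂ)).re) ≤ 1 - (((z ^ (2 ^ k) : Circle) : ℂ)).re := by
    intro k
    induction k with
    | zero => simp
    | succ k ih =>
      have h1 := circle_defect (z ^ (2 ^ k)) (h k).le
      have h2 : (z ^ (2 ^ k)) * (z ^ (2 ^ k)) = z ^ (2 ^ (k + 1)) := by
        rw [← pow_add, pow_succ, mul_two]
      rw [h2] at h1
      calc (2 : ℝ) ^ (k + 1) * (1 - ((z : ℂ)).re) = 2 * (2 ^ k * (1 - ((z : ℂ)).re)) := by ring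
        _ ≤ 2 * (1 - (((z ^ (2 ^ k) : Circle) : ℂ)).re) := by linarith
        _ ≤ _ := h1
  have hre : 1 ≤ ((z : ℂ)).re := by
    by_contra hlt
    have hlt' : ((z : ℂ)).re < 1 := not_le.mp hlt
    have hpos : 0 < 1 - ((z : ℂ)).re := by linarith
    obtain ⟨k, hk⟩ := pow_unbounded_of_one_lt (1 / (1 - ((z : ℂ)).re)) (one_lt_two : (1:ℝ) < 2)
    have hkey := key k
    have h3 := h k
    have : 1 < 2 ^ k * (1 - ((z : ℂ)).re) := by
      rw [div_lt_iff₀ hpos] at hk
      exact hk
    linarith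
  have hn : ((z : ℂ)).re ^ 2 + ((z : ℂ)).im ^ 2 = 1 := by
    have := Circle.normSq_coe z
    rw [Complex.normSq_apply] at this
    nlinarith [this]
  have him : ((z : ℂ)).im = 0 := by
    have h1 : ((z : ℂ)).im ^ 2 ≤ 0 := by nlinarith
    have h2 := le_antisymm h1 (sq_nonneg _)
    exact pow_eq_zero_iff (two_ne_zero) |>.mp h2
  have hre1 : ((z : ℂ)).re = 1 := by nlinarith
  apply Circle.ext
  apply Complex.ext <;> simp [hre1, him]

/-- The open right half of the circle. -/
def rightHalf : Set Circle := {z | 0 < ((z : ℂ)).re}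

theorem isOpen_rightHalf : IsOpen rightHalf :=
  isOpen_lt continuous_const (Complex.continuous_re.comp continuous_subtype_val)

theorem one_mem_rightHalf : (1 : Circle) ∈ rightHalf := by
  simp [rightHalf]

variable (K : Type) [Field K] [NumberField K]

/-! ## Local norms -/

/-- the image of `k : K` in the completion at `v`. -/
abbrev loc (v : HeightOneSpectrum (𝓞 K)) (k : K) : v.adicCompletion K :=
  algebraMap K (v.adicCompletion K) k

theorem norm_loc_int_le_one (v : HeightOneSpectrum (𝓞 K)) (a : 𝓞 K) : ‖loc K v (a : K)‖ ≤ 1 := by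
  rw [Valued.toNormedField.norm_le_one_iff]
  exact Fermat.Agent.LT.H767.valued_algebraMap_int_le_one K v a

theorem loc_ne_zero (v : HeightOneSpectrum (𝓞 K)) {k : K} (hk : k ≠ 0) : loc K v k ≠ 0 := by
  intro h
  apply hk
  have := (algebraMap K (v.adicCompletion K)).injective
  exact this (by simpa [loc] using h)

/-- for every `ε > 0` there is a non-zero integer of `K` of `v`-adic norm `< ε`. -/
theorem exists_int_norm_lt (v : HeightOneSpectrum (𝓞 K)) (ε : ℝ) (hε : 0 < ε) :
    ∃ d : 𝓞 K, d ≠ 0 ∧ ‖loc K v (d : K)‖ < ε := by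
  obtain ⟨π, hπ, hπ0⟩ := Submodule.exists_mem_ne_zero_of_ne_bot v.ne_bot
  have hP1 : ‖loc K v (π : K)‖ < 1 := by
    rw [Valued.toNormedField.norm_lt_one_iff, Fermat.Agent.LT.H767.valued_algebraMap]
    exact (v.valuation_lt_one_iff_mem π).mpr hπ
  obtain ⟨n, hn⟩ := exists_pow_lt_of_lt_one hε hP1
  refine ⟨π ^ n, pow_ne_zero n hπ0, ?_⟩
  have : loc K v ((π ^ n : 𝓞 K) : K) = (loc K v (π : K)) ^ n := by
    simp [loc]
  rw [this, norm_pow]
  exact hn

/-! ## Level sets -/

/-- The open compact subgroup `d 𝒪̂` of the finite adeles (in terms of norms). -/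
def levelSet (d : 𝓞 K) : Set (FiniteAdeleRing (𝓞 K) K) :=
  {f | ∀ v : HeightOneSpectrum (𝓞 K), ‖f v‖ ≤ ‖loc K v (d : K)‖}

theorem zero_mem_levelSet (d : 𝓞 K) : (0 : FiniteAdeleRing (𝓞 K) K) ∈ levelSet K d := by
  intro v
  have : (0 : FiniteAdeleRing (𝓞 K) K) v = 0 := rfl
  rw [this, norm_zero]
  exact norm_nonneg _

theorem mem_integers_of_mem_levelSet {d : 𝓞 K} {f : FiniteAdeleRing (𝓞 K) K}
    (hf : f ∈ levelSet K d) (v : HeightOneSpectrum (𝓞 K)) :
    f v ∈ v.adicCompletionIntegers K := by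
  rw [mem_adicCompletionIntegers, ← Valued.toNormedField.norm_le_one_iff]
  exact (hf v).trans (norm_loc_int_le_one K v _)

/-- multiplication by an integral adele preserves the level sets. -/
theorem mul_mem_levelSet {d : 𝓞 K} {f g : FiniteAdeleRing (𝓞 K) K}
    (hf : f ∈ levelSet K d) (hg : ∀ v, g v ∈ v.adicCompletionIntegers K) :
    g * f ∈ levelSet K d := by
  intro v
  have h1 : (g * f) v = g v * f v := rfl
  rw [h1, norm_mul]
  have h2 : ‖g v‖ ≤ 1 := by
    rw [Valued.toNormedField.norm_le_one_iff]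
    exact (mem_adicCompletionIntegers _ _ _).mp (hg v)
  calc ‖g v‖ * ‖f v‖ ≤ 1 * ‖f v‖ := mul_le_mul_of_nonneg_right h2 (norm_nonneg _)
    _ = ‖f v‖ := one_mul _
    _ ≤ _ := hf v

theorem nsmul_mem_levelSet {d : 𝓞 K} {f : FiniteAdeleRing (𝓞 K) K}
    (hf : f ∈ levelSet K d) (n : ℕ) : n • f ∈ levelSet K d := by
  have h : n • f = (n : FiniteAdeleRing (𝓞 K) K) * f := by
    rw [nsmul_eq_mul]
  rw [h]
  refine mul_mem_levelSet K hf fun v => ?_
  have : ((n : FiniteAdeleRing (𝓞 K) K)) v = ((n : v.adicCompletion K)) := rfl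
  rw [this]
  exact natCast_mem _ n

/-- every neighbourhood of `0` in the finite adeles contains a level set. -/
theorem exists_levelSet_subset (U : Set (FiniteAdeleRing (𝓞 K) K))
    (hU : U ∈ nhds (0 : FiniteAdeleRing (𝓞 K) K)) :
    ∃ d : 𝓞 K, d ≠ 0 ∧ levelSet K d ⊆ U := by
  classical
  have hopen : ∀ v : HeightOneSpectrum (𝓞 K),
      IsOpen ((v.adicCompletionIntegers K : Set (v.adicCompletion K))) :=
    fun v => Valued.isOpen_valuationSubring _
  have key := RestrictedProduct.nhds_zero_eq_map_structureMap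
    (R := fun v : HeightOneSpectrum (𝓞 K) => v.adicCompletion K)
    (B := fun v : HeightOneSpectrum (𝓞 K) => v.adicCompletionIntegers K) hopen
  have hU' : U ∈ Filter.map (RestrictedProduct.structureMap
      (fun v : HeightOneSpectrum (𝓞 K) => v.adicCompletion K)
      (fun v : HeightOneSpectrum (𝓞 K) => (v.adicCompletionIntegers K : Set (v.adicCompletion K)))
      Filter.cofinite) (nhds 0) := by
    rw [← key]; exact hU
  have hU2 : (RestrictedProduct.structureMap
      (fun v : HeightOneSpectrum (𝓞 K) => v.adicCompletion K)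
      (fun v : HeightOneSpectrum (𝓞 K) => (v.adicCompletionIntegers K : Set (v.adicCompletion K)))
      Filter.cofinite) ⁻¹' U ∈ nhds (0 : Π v : HeightOneSpectrum (𝓞 K), v.adicCompletionIntegers K) :=
    hU'
  rw [nhds_pi, Filter.mem_pi] at hU2
  obtain ⟨I, hI, t, ht, hsub⟩ := hU2
  -- radii
  have hε : ∀ v : HeightOneSpectrum (𝓞 K), ∃ ε : ℝ, 0 < ε ∧
      ∀ x : v.adicCompletionIntegers K, ‖(x : v.adicCompletion K)‖ < ε → x ∈ t v := by
    intro v
    have := ht v
    rw [Metric.mem_nhds_iff] at this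
    obtain ⟨ε, hε, h⟩ := this
    refine ⟨ε, hε, fun x hx => h ?_⟩
    rw [Metric.mem_ball, dist_eq_norm]
    have h0 : x - (0 : Π v : HeightOneSpectrum (𝓞 K), v.adicCompletionIntegers K) v = x := by
      simp
    rw [h0]
    exact hx
  choose ε hεpos hεt using hε
  choose δ hδ0 hδ using fun v : HeightOneSpectrum (𝓞 K) => exists_int_norm_lt K v (ε v) (hεpos v)
  refine ⟨∏ v ∈ hI.toFinset, δ v, Finset.prod_ne_zero_iff.mpr fun v _ => hδ0 v, ?_⟩
  intro f hf
  have hfint : ∀ v, f v ∈ v.adicCompletionIntegers K :=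
    fun v => mem_integers_of_mem_levelSet K hf v
  have hfeq : f = RestrictedProduct.structureMap
      (fun v : HeightOneSpectrum (𝓞 K) => v.adicCompletion K)
      (fun v : HeightOneSpectrum (𝓞 K) => (v.adicCompletionIntegers K : Set (v.adicCompletion K)))
      Filter.cofinite (fun v => ⟨f v, hfint v⟩) := by
    apply FiniteAdeleRing.ext; intro v; rfl
  rw [hfeq]
  apply hsub
  intro v hv
  apply hεt
  change ‖f v‖ < ε v
  refine lt_of_le_of_lt (hf v) (lt_of_le_of_lt ?_ (hδ v))
  -- the product is divisible by `δ v`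
  have hmem : v ∈ hI.toFinset := hI.mem_toFinset.mpr hv
  rw [← Finset.mul_prod_erase _ _ hmem]
  have : loc K v (((δ v * ∏ x ∈ hI.toFinset.erase v, δ x : 𝓞 K)) : K)
      = loc K v (δ v : K) * loc K v ((∏ x ∈ hI.toFinset.erase v, δ x : 𝓞 K) : K) := by
    simp [loc]
  rw [this, norm_mul]
  exact mul_le_of_le_one_right (norm_nonneg _) (norm_loc_int_le_one K v _)

/-- `𝔸_f = K + d 𝒪̂` (strong approximation away from infinity). -/
theorem exists_sub_mem_levelSet (a : FiniteAdeleRing (𝓞 K) K) (d : 𝓞 K) (hd : d ≠ 0) :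
    ∃ k : K, a - algebraMap K (FiniteAdeleRing (𝓞 K) K) k ∈ levelSet K d := by
  have hdK : (d : K) ≠ 0 := by simpa using hd
  obtain ⟨k, hk⟩ := Fermat.Agent.LT.H767.exists_sub_mem_integers K
    (algebraMap K (FiniteAdeleRing (𝓞 K) K) (d : K)⁻¹ * a)
  refine ⟨(d : K) * k, fun v => ?_⟩
  have h1 : (a - algebraMap K (FiniteAdeleRing (𝓞 K) K) ((d : K) * k)) v
      = loc K v (d : K) * ((algebraMap K (FiniteAdeleRing (𝓞 K) K) (d : K)⁻¹ * a) v
          - algebraMap K (v.adicCompletion K) k) := by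
    have e1 : (a - algebraMap K (FiniteAdeleRing (𝓞 K) K) ((d : K) * k)) v
        = a v - loc K v ((d : K) * k) := rfl
    have e2 : (algebraMap K (FiniteAdeleRing (𝓞 K) K) (d : K)⁻¹ * a) v
        = loc K v ((d : K)⁻¹) * a v := rfl
    rw [e1, e2]
    have e3 : loc K v ((d : K) * k) = loc K v (d : K) * loc K v k := by simp [loc]
    have e4 : loc K v (d : K) * loc K v ((d : K)⁻¹) = 1 := by
      rw [← map_mul, mul_inv_cancel₀ hdK, map_one]
    rw [e3]
    calc a v - loc K v (d : K) * loc K v k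
        = (loc K v (d : K) * loc K v ((d : K)⁻¹)) * a v - loc K v (d : K) * loc K v k := by
          rw [e4, one_mul]
      _ = _ := by ring
  rw [h1, norm_mul]
  have h2 : ‖(algebraMap K (FiniteAdeleRing (𝓞 K) K) (d : K)⁻¹ * a) v
      - algebraMap K (v.adicCompletion K) k‖ ≤ 1 := by
    rw [Valued.toNormedField.norm_le_one_iff]
    exact (mem_adicCompletionIntegers _ _ _).mp (hk v)
  exact mul_le_of_le_one_right (norm_nonneg _) h2

/-! ## Characters of the adeles -/

/-- the finite adele `f` as an adele. -/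
def finA (f : FiniteAdeleRing (𝓞 K) K) : AdeleRing (𝓞 K) K := (0, f)

/-- the infinite adele `t` as an adele. -/
def infA (t : InfiniteAdeleRing K) : AdeleRing (𝓞 K) K := (t, 0)

theorem continuous_finA : Continuous (finA K) :=
  Continuous.prodMk continuous_const continuous_id

theorem continuous_infA : Continuous (infA K) :=
  Continuous.prodMk continuous_id continuous_const

theorem finA_zero : finA K 0 = 0 := rfl

theorem infA_zero : infA K 0 = 0 := rfl

theorem finA_add (f g : FiniteAdeleRing (𝓞 K) K) : finA K (f + g) = finA K f + finA K g :=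
  Prod.ext (show (0 : InfiniteAdeleRing K) = 0 + 0 from (add_zero 0).symm) rfl

theorem infA_add (s t : InfiniteAdeleRing K) : infA K (s + t) = infA K s + infA K t :=
  Prod.ext rfl (show (0 : FiniteAdeleRing (𝓞 K) K) = 0 + 0 from (add_zero 0).symm)

theorem finA_nsmul (n : ℕ) (f : FiniteAdeleRing (𝓞 K) K) : finA K (n • f) = n • finA K f := by
  induction n with
  | zero => simp [finA_zero]
  | succ n ih => rw [succ_nsmul, succ_nsmul, finA_add, ih]

theorem infA_add_finA (x : AdeleRing (𝓞 K) K) : infA K x.1 + finA K x.2 = x :=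
  Prod.ext (show x.1 + (0 : InfiniteAdeleRing K) = x.1 from add_zero _)
    (show (0 : FiniteAdeleRing (𝓞 K) K) + x.2 = x.2 from zero_add _)

/-- **Step 0.** A continuous character of the adeles is trivial on `0 × d 𝒪̂` for some non-zero
`d`. -/
theorem exists_level (ψ : AddChar (AdeleRing (𝓞 K) K) Circle) (hc : Continuous ψ) :
    ∃ d : 𝓞 K, d ≠ 0 ∧ ∀ f ∈ levelSet K d, ψ (finA K f) = 1 := by
  have hcont : Continuous fun f : FiniteAdeleRing (𝓞 K) K => ψ (finA K f) :=
    hc.comp (continuous_finA K)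
  have hU : (fun f : FiniteAdeleRing (𝓞 K) K => ψ (finA K f)) ⁻¹' rightHalf
      ∈ nhds (0 : FiniteAdeleRing (𝓞 K) K) := by
    apply hcont.continuousAt.preimage_mem_nhds
    apply isOpen_rightHalf.mem_nhds
    rw [finA_zero, AddChar.map_zero_eq_one]
    exact one_mem_rightHalf
  obtain ⟨d, hd0, hd⟩ := exists_levelSet_subset K _ hU
  refine ⟨d, hd0, fun f hf => ?_⟩
  apply circle_eq_one_of_pow
  intro k
  have h1 : (2 ^ k) • f ∈ levelSet K d := nsmul_mem_levelSet K hf _
  have h2 := hd h1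
  have h3 : ψ (finA K ((2 ^ k) • f)) = ψ (finA K f) ^ (2 ^ k) := by
    rw [finA_nsmul, AddChar.map_nsmul_eq_pow]
  change ψ (finA K ((2 ^ k) • f)) ∈ rightHalf at h2
  rw [h3] at h2
  exact h2

end Fermat.Agent.LT.T3.H127
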