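import Mathlib
import Fermat.Agent.LT.T3.H127.Level

/-!
# Row LT, tower T3, leaf T3.03 (helper127): the archimedean part of a character

OFF-MAIN.

* `exists_radius` : a continuous character of the adeles maps a small box at the infinite places
  into a given neighbourhood of `1`.
* `dyadic_descent` : if `ψ (t) = 1` and the dyadic fractions of `t` stay in a box which is mapped
  to the right half circle, then `ψ (t / 2 ^ k) = 1` for all `k`.
-/

set_option autoImplicit false

open NumberField IsDedekindDomain IsDedekindDomain.HeightOneSpectrum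

noncomputable section

namespace Fermat.Agent.LT.T3.H127

theorem eq_one_of_sq_of_mem_rightHalf (z : Circle) (h2 : z * z = 1) (hz : z ∈ rightHalf) :
    z = 1 := by
  apply circle_eq_one_of_pow
  intro k
  cases k with
  | zero =>
    have hz' : 0 < ((z : ℂ)).re := hz
    simpa using hz'
  | succ k =>
    have : z ^ (2 ^ (k + 1)) = 1 := by
      rw [pow_succ, pow_mul', pow_two, h2, one_pow]
    rw [this]
    simp

variable (K : Type) [Field K] [NumberField K]

/-- The open box of radius `r` at the infinite places. -/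
def infBox (r : ℝ) : Set (InfiniteAdeleRing K) := {t | ∀ w : InfinitePlace K, ‖t w‖ < r}

/-- the boxes form a basis of neighbourhoods of `0` in `K_∞`. -/
theorem exists_infBox_subset (U : Set (InfiniteAdeleRing K))
    (hU : U ∈ nhds (0 : InfiniteAdeleRing K)) : ∃ r : ℝ, 0 < r ∧ infBox K r ⊆ U := by
  classical
  obtain ⟨I, hI, t, ht, hsub⟩ : ∃ I : Set (InfinitePlace K), I.Finite ∧
      ∃ t : ∀ w : InfinitePlace K, Set w.Completion, (∀ w, t w ∈ nhds (0 : w.Completion)) ∧
        ∀ x : InfiniteAdeleRing K, (∀ w ∈ I, x w ∈ t w) → x ∈ U := by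
    have hU2 : (show Set (Π w : InfinitePlace K, w.Completion) from U)
        ∈ nhds (0 : Π w : InfinitePlace K, w.Completion) := hU
    rw [nhds_pi, Filter.mem_pi] at hU2
    obtain ⟨I, hI, t, ht, hsub⟩ := hU2
    exact ⟨I, hI, t, ht, fun x hx => hsub hx⟩
  have hε : ∀ w : InfinitePlace K, ∃ ε : ℝ, 0 < ε ∧ Metric.ball (0 : w.Completion) ε ⊆ t w := by
    intro w
    exact Metric.mem_nhds_iff.mp (ht w)
  choose ε hεpos hεt using hε
  have hne : (Finset.univ : Finset (InfinitePlace K)).Nonempty := Finset.univ_nonempty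
  refine ⟨Finset.univ.inf' hne ε, (Finset.lt_inf'_iff hne).mpr (fun w _ => hεpos w), ?_⟩
  · intro x hx
    apply hsub
    intro w _
    apply hεt
    rw [Metric.mem_ball, dist_eq_norm, sub_zero]
    exact lt_of_lt_of_le (hx w) (Finset.inf'_le _ (Finset.mem_univ w))

/-- A continuous character maps a small box at infinity into a given neighbourhood of `1`. -/
theorem exists_radius (ψ : AddChar (AdeleRing (𝓞 K) K) Circle) (hc : Continuous ψ)
    (V : Set Circle) (hV : V ∈ nhds (1 : Circle)) :
    ∃ r : ℝ, 0 < r ∧ ∀ t ∈ infBox K r, ψ (infA K t) ∈ V := by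
  have hcont : Continuous fun t : InfiniteAdeleRing K => ψ (infA K t) :=
    hc.comp (continuous_infA K)
  have hU : (fun t : InfiniteAdeleRing K => ψ (infA K t)) ⁻¹' V
      ∈ nhds (0 : InfiniteAdeleRing K) := by
    apply hcont.continuousAt.preimage_mem_nhds
    rw [infA_zero, AddChar.map_zero_eq_one]
    exact hV
  obtain ⟨r, hr, h⟩ := exists_infBox_subset K _ hU
  exact ⟨r, hr, fun t ht => h ht⟩

end Fermat.Agent.LT.T3.H127
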