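import Mathlib
import Fermat.Agent.LT.T3.H127.Inf

/-!
# Row LT, tower T3, leaf T3.03 (helper127): small elements (Minkowski)

OFF-MAIN.

* `exists_int_small_away` : a non-zero integer of `K`, small at all infinite places but one.
* `exists_small_away_fin` : a non-zero element of `K`, small at all infinite places and integral at
  all finite places but one.
-/

set_option autoImplicit false

open NumberField IsDedekindDomain IsDedekindDomain.HeightOneSpectrum
open NumberField.mixedEmbedding NNReal ENNReal MeasureTheory Module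
open scoped nonZeroDivisors

noncomputable section

namespace Fermat.Agent.LT.T3.H127

variable (K : Type) [Field K] [NumberField K]

/-- Minkowski: a non-zero integer which is small at all infinite places but one. -/
theorem exists_int_small_away (w₁ : InfinitePlace K) (ε : ℝ) (hε : 0 < ε) :
    ∃ a : 𝓞 K, a ≠ 0 ∧ ∀ w : InfinitePlace K, w ≠ w₁ → w (a : K) < ε := by
  classical
  obtain ⟨B, hB⟩ : ∃ B : ℕ, minkowskiBound K 1 < (convexBodyLTFactor K) * B := by
    conv => congr; ext; rw [mul_comm]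
    exact ENNReal.exists_nat_mul_gt (ENNReal.coe_ne_zero.mpr (convexBodyLTFactor_ne_zero K))
      (ne_of_lt (minkowskiBound_lt_top K 1))
  let f : InfinitePlace K → ℝ≥0 := fun _ => ⟨ε, hε.le⟩
  have hf : ∀ w, w ≠ w₁ → f w ≠ 0 := by
    intro w _ h
    have : (f w : ℝ) = 0 := by rw [h]; rfl
    exact hε.ne' this
  obtain ⟨g, h_geqf, h_gprod⟩ := adjust_f K B hf
  obtain ⟨y, h_ynz, h_yle⟩ := exists_ne_zero_mem_ringOfIntegers_lt K (f := g)
      (by rw [convexBodyLT_volume]; convert hB; exact congr_arg ((↑) : NNReal → ENNReal) h_gprod)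
  refine ⟨y, h_ynz, fun w hw => ?_⟩
  have := h_yle w
  rw [h_geqf w hw] at this
  exact this

/-- an element of `𝔭₀ ^ m` which is a unit at `v ≠ v₀`. -/
theorem exists_mem_pow_not_mem (v₀ v : HeightOneSpectrum (𝓞 K)) (hv : v ≠ v₀) (m : ℕ) :
    ∃ c : 𝓞 K, c ∈ v₀.asIdeal ^ m ∧ c ∉ v.asIdeal := by
  by_contra h
  have hle : v₀.asIdeal ^ m ≤ v.asIdeal := by
    intro c hc
    by_contra hcv
    exact h ⟨c, hc, hcv⟩
  have h1 : v₀.asIdeal ≤ v.asIdeal := v.isPrime.le_of_pow_le hle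
  have h2 : v₀.asIdeal = v.asIdeal := v₀.isMaximal.eq_of_le v.isPrime.ne_top h1
  exact hv (HeightOneSpectrum.ext h2.symm)

/-- the norm at `v` of an integer outside `𝔭_v` is one. -/
theorem norm_loc_eq_one_of_not_mem (v : HeightOneSpectrum (𝓞 K)) (c : 𝓞 K) (hc : c ∉ v.asIdeal) :
    ‖loc K v (c : K)‖ = 1 := by
  apply le_antisymm (norm_loc_int_le_one K v c)
  by_contra hlt
  have hlt' : ‖loc K v (c : K)‖ < 1 := not_le.mp hlt
  rw [Valued.toNormedField.norm_lt_one_iff, Fermat.Agent.LT.H767.valued_algebraMap] at hlt'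
  exact hc ((v.valuation_lt_one_iff_mem c).mp hlt')

/-- Minkowski: a non-zero element of `K` which is small at all infinite places and integral at all
finite places but one. -/
theorem exists_small_away_fin (v₀ : HeightOneSpectrum (𝓞 K)) (ε : ℝ) (hε : 0 < ε) :
    ∃ a : K, a ≠ 0 ∧ (∀ w : InfinitePlace K, w a < ε) ∧
      ∀ v : HeightOneSpectrum (𝓞 K), v ≠ v₀ → ‖loc K v a‖ ≤ 1 := by
  classical
  let f : InfinitePlace K → ℝ≥0 := fun _ => ⟨ε, hε.le⟩
  -- the volume of the convex body is positive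
  have hvol : volume (convexBodyLT K f) ≠ 0 := by
    rw [convexBodyLT_volume]
    refine mul_ne_zero (ENNReal.coe_ne_zero.mpr (convexBodyLTFactor_ne_zero K)) ?_
    rw [ENNReal.coe_ne_zero, Finset.prod_ne_zero_iff]
    intro w _
    apply pow_ne_zero
    intro h
    have : (f w : ℝ) = 0 := by rw [h]; rfl
    exact hε.ne' this
  obtain ⟨n, hn⟩ : ∃ n : ℕ, minkowskiBound K 1 < n * volume (convexBodyLT K f) :=
    ENNReal.exists_nat_mul_gt hvol (ne_of_lt (minkowskiBound_lt_top K 1))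
  -- the fractional ideal `𝔭₀ ^ (-n)`
  set P : FractionalIdeal (𝓞 K)⁰ K := (v₀.asIdeal : FractionalIdeal (𝓞 K)⁰ K) with hP
  have hP0 : P ≠ 0 := FractionalIdeal.coeIdeal_ne_zero.mpr v₀.ne_bot
  let I : (FractionalIdeal (𝓞 K)⁰ K)ˣ := Units.mk0 ((P ^ n)⁻¹) (inv_ne_zero (pow_ne_zero n hP0))
  have hI : (I : FractionalIdeal (𝓞 K)⁰ K) = (P ^ n)⁻¹ := rfl
  have hMB : minkowskiBound K I
      = ENNReal.ofReal (FractionalIdeal.absNorm (I : FractionalIdeal (𝓞 K)⁰ K))
          * minkowskiBound K 1 := by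
    unfold minkowskiBound
    rw [volume_fundamentalDomain_fractionalIdealLatticeBasis,
      volume_fundamentalDomain_fractionalIdealLatticeBasis]
    simp [mul_assoc]
  have hN2 : (2 : ℝ) ≤ (Ideal.absNorm v₀.asIdeal : ℝ) := by
    have h1 : Ideal.absNorm v₀.asIdeal ≠ 0 := by
      rw [Ne, Ideal.absNorm_eq_zero_iff]; exact v₀.ne_bot
    have h2 : Ideal.absNorm v₀.asIdeal ≠ 1 := by
      rw [Ne, Ideal.absNorm_eq_one_iff]; exact v₀.isPrime.ne_top
    have : 2 ≤ Ideal.absNorm v₀.asIdeal := by omega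
    exact_mod_cast this
  have habs : ((FractionalIdeal.absNorm (I : FractionalIdeal (𝓞 K)⁰ K) : ℚ) : ℝ)
      = ((Ideal.absNorm v₀.asIdeal : ℝ) ^ n)⁻¹ := by
    rw [hI, map_inv₀, map_pow, hP, FractionalIdeal.coeIdeal_absNorm]
    push_cast
    rfl
  have hNn : (n : ℝ) ≤ (Ideal.absNorm v₀.asIdeal : ℝ) ^ n := by
    calc (n : ℝ) ≤ (2 : ℝ) ^ n := by exact_mod_cast (Nat.lt_two_pow_self (n := n)).le
      _ ≤ _ := pow_le_pow_left₀ (by norm_num) hN2 n
  have hNpos : (0 : ℝ) < (Ideal.absNorm v₀.asIdeal : ℝ) ^ n := by positivity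
  have hlt : minkowskiBound K I < volume (convexBodyLT K f) := by
    rw [hMB, habs]
    set x : ℝ≥0∞ := ENNReal.ofReal (((Ideal.absNorm v₀.asIdeal : ℝ) ^ n)⁻¹) with hx
    have hxpos : x ≠ 0 := by
      rw [hx, Ne, ENNReal.ofReal_eq_zero, not_le]
      positivity
    have hxtop : x ≠ ⊤ := ENNReal.ofReal_ne_top
    have hxn : x * n ≤ 1 := by
      have : (n : ℝ≥0∞) = ENNReal.ofReal (n : ℝ) := by simp
      rw [hx, this, ← ENNReal.ofReal_mul (by positivity), ← ENNReal.ofReal_one]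
      apply ENNReal.ofReal_le_ofReal
      rw [inv_mul_le_iff₀ hNpos, mul_one]
      exact hNn
    calc x * minkowskiBound K 1 < x * (n * volume (convexBodyLT K f)) :=
          (ENNReal.mul_lt_mul_iff_right hxpos hxtop).mpr hn
      _ = (x * n) * volume (convexBodyLT K f) := by rw [mul_assoc]
      _ ≤ 1 * volume (convexBodyLT K f) := by gcongr
      _ = _ := one_mul _
  obtain ⟨a, haI, ha0, haw⟩ := exists_ne_zero_mem_ideal_lt K I hlt
  refine ⟨a, ha0, fun w => haw w, fun v hv => ?_⟩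
  obtain ⟨c, hc, hcv⟩ := exists_mem_pow_not_mem K v₀ v hv n
  have hcP : (c : K) ∈ P ^ n := by
    rw [hP, ← FractionalIdeal.coeIdeal_pow, FractionalIdeal.mem_coeIdeal]
    exact ⟨c, hc, rfl⟩
  have hac : a * (c : K) ∈ (P ^ n)⁻¹ * P ^ n := FractionalIdeal.mul_mem_mul haI hcP
  rw [inv_mul_cancel₀ (pow_ne_zero n hP0), FractionalIdeal.mem_one_iff] at hac
  obtain ⟨b, hb⟩ := hac
  have h1 : ‖loc K v a‖ * ‖loc K v (c : K)‖ = ‖loc K v (b : K)‖ := by
    rw [← norm_mul]
    congr 1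
    simp only [loc]
    rw [← map_mul, ← hb]
  rw [norm_loc_eq_one_of_not_mem K v c hcv, mul_one] at h1
  rw [h1]
  exact norm_loc_int_le_one K v b

end Fermat.Agent.LT.T3.H127
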