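import Mathlib
import Fermat.Agent.LT.T3.H127.Mink

/-!
# Row LT, tower T3, leaf T3.03 (helper127): local non-triviality of a standard character

OFF-MAIN.

A continuous character of `𝔸_K` which is trivial on `K` and on the adeles supported at ONE place
(finite or infinite) is trivial (strong approximation, in the dual form).

* `trivial_of_trivial_at_inf`, `trivial_of_trivial_at_fin`.
-/

set_option autoImplicit false

open NumberField IsDedekindDomain IsDedekindDomain.HeightOneSpectrum

noncomputable section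

namespace Fermat.Agent.LT.T3.H127

theorem eq_one_of_forall_mem_nhds (z : Circle) (h : ∀ V ∈ nhds (1 : Circle), z ∈ V) : z = 1 := by
  by_contra hne
  have h1 : ({z}ᶜ : Set Circle) ∈ nhds (1 : Circle) :=
    isOpen_compl_singleton.mem_nhds (by
      simp only [Set.mem_compl_iff, Set.mem_singleton_iff]
      exact fun h => hne h.symm)
  exact (h _ h1) rfl

variable (K : Type) [Field K] [NumberField K]

/-- the diagonal embedding. -/
abbrev embA : K →+* AdeleRing (𝓞 K) K := algebraMap K (AdeleRing (𝓞 K) K)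

theorem map_split (ψ : AddChar (AdeleRing (𝓞 K) K) Circle) (x : AdeleRing (𝓞 K) K) :
    ψ x = ψ (infA K x.1) * ψ (finA K x.2) := by
  rw [← AddChar.map_add_eq_mul, infA_add_finA]

/-- the norm at an infinite place of a principal adele. -/
theorem norm_embA_fst (k : K) (w : InfinitePlace K) : ‖(embA K k).1 w‖ = w k := by
  change ‖((k : K) : w.Completion)‖ = _
  rw [InfinitePlace.Completion.norm_coe]
  rfl

theorem embA_mul_fst (k : K) (b : AdeleRing (𝓞 K) K) (w : InfinitePlace K) :
    (embA K k * b).1 w = (embA K k).1 w * b.1 w := rfl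

theorem embA_mul_snd (k : K) (b : AdeleRing (𝓞 K) K) (v : HeightOneSpectrum (𝓞 K)) :
    (embA K k * b).2 v = loc K v k * b.2 v := rfl

/-- **Reduction to the compact box.**  For a character trivial on `K` and `lam ∈ Kˣ`, every value
of `ψ` is a value on `lam · adeleBox`. -/
theorem exists_box_rep (ψ : AddChar (AdeleRing (𝓞 K) K) Circle)
    (htriv : ∀ ξ : K, ψ (embA K ξ) = 1) (lam : K) (hlam : lam ≠ 0) (a : AdeleRing (𝓞 K) K) :
    ∃ b ∈ Fermat.Agent.LT.H767.adeleBox K, ψ a = ψ (embA K lam * b) := by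
  obtain ⟨k, hk⟩ := Fermat.Agent.LT.H767.exists_sub_mem_adeleBox K (embA K lam⁻¹ * a)
  refine ⟨_, hk, ?_⟩
  have h1 : a = embA K lam * (embA K lam⁻¹ * a - embA K k) + embA K (lam * k) := by
    have h2 : embA K lam * embA K lam⁻¹ = 1 := by
      rw [← map_mul, mul_inv_cancel₀ hlam, map_one]
    rw [map_mul]
    calc a = (embA K lam * embA K lam⁻¹) * a := by rw [h2, one_mul]
      _ = _ := by ring
  conv_lhs => rw [h1]
  rw [AddChar.map_add_eq_mul, htriv, mul_one]


/-- the sum of the absolute values of `k` at the infinite places. -/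
def infSize (k : K) : ℝ := ∑ w : InfinitePlace K, w k

theorem le_infSize (k : K) (w : InfinitePlace K) : w k ≤ infSize K k :=
  Finset.single_le_sum (f := fun w : InfinitePlace K => w k)
    (fun _ _ => AbsoluteValue.nonneg _ _) (Finset.mem_univ w)

theorem infSize_nonneg (k : K) : 0 ≤ infSize K k :=
  Finset.sum_nonneg fun _ _ => AbsoluteValue.nonneg _ _

/-- the arithmetic of the radii. -/
theorem radius_aux {r C D x y z : ℝ} (hr : 0 < r) (hC : 0 ≤ C) (hD : 0 ≤ D)
    (_hx0 : 0 ≤ x) (hx : x ≤ D) (hy0 : 0 ≤ y) (hy : y ≤ r / ((C + 1) * (D + 1)))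
    (hz0 : 0 ≤ z) (hz : z ≤ C) : x * y * z < r := by
  have hpos : 0 < (C + 1) * (D + 1) := by positivity
  have h1 : x * y * z ≤ D * (r / ((C + 1) * (D + 1))) * C := by
    gcongr
  have h2 : D * (r / ((C + 1) * (D + 1))) * C < r := by
    rw [show D * (r / ((C + 1) * (D + 1))) * C = r * (D * C) / ((C + 1) * (D + 1)) by ring,
      div_lt_iff₀ hpos]
    have : D * C < (C + 1) * (D + 1) := by nlinarith
    exact mul_lt_mul_of_pos_left this hr
  exact lt_of_le_of_lt h1 h2

/-- **Local non-triviality at an infinite place.**  A continuous character of the adeles which is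
trivial on `K` and on the adeles supported at the infinite place `w₀` is trivial. -/
theorem trivial_of_trivial_at_inf (ψ : AddChar (AdeleRing (𝓞 K) K) Circle) (hc : Continuous ψ)
    (htriv : ∀ ξ : K, ψ (embA K ξ) = 1) (w₀ : InfinitePlace K)
    (hloc : ∀ t : InfiniteAdeleRing K, (∀ w, w ≠ w₀ → t w = 0) → ψ (infA K t) = 1)
    (a : AdeleRing (𝓞 K) K) : ψ a = 1 := by
  classical
  apply eq_one_of_forall_mem_nhds
  intro V hV
  obtain ⟨d, hd0, hd⟩ := exists_level K ψ hc
  obtain ⟨r, hr, hrV⟩ := exists_radius K ψ hc V hV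
  have hC : 0 ≤ Fermat.Agent.LT.H767.infBound K := Fermat.Agent.LT.H767.infBound_nonneg K
  set C := Fermat.Agent.LT.H767.infBound K with hCdef
  set D := infSize K (d : K) with hDdef
  have hD : 0 ≤ D := infSize_nonneg K _
  have hε : 0 < r / ((C + 1) * (D + 1)) := by positivity
  obtain ⟨y, hy0, hy⟩ := exists_int_small_away K w₀ _ hε
  have hdK : (d : K) ≠ 0 := by simpa using hd0
  have hyK : (y : K) ≠ 0 := by simpa using hy0
  obtain ⟨b, hb, hab⟩ := exists_box_rep K ψ htriv ((d : K) * (y : K)) (mul_ne_zero hdK hyK) a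
  rw [hab, map_split]
  set c := embA K ((d : K) * (y : K)) * b with hcdef
  -- the finite part lies in the level set
  have hfin : ψ (finA K c.2) = 1 := by
    apply hd
    intro v
    rw [hcdef, embA_mul_snd, norm_mul]
    have h1 : loc K v ((d : K) * (y : K)) = loc K v (d : K) * loc K v (y : K) := by simp [loc]
    rw [h1, norm_mul]
    have h2 : ‖b.2 v‖ ≤ 1 := by
      rw [Valued.toNormedField.norm_le_one_iff]
      exact (mem_adicCompletionIntegers _ _ _).mp (hb.2 v)
    have h3 := norm_loc_int_le_one K v y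
    calc ‖loc K v (d : K)‖ * ‖loc K v (y : K)‖ * ‖b.2 v‖
        ≤ ‖loc K v (d : K)‖ * 1 * 1 := by gcongr
      _ = _ := by ring
  rw [hfin, mul_one]
  -- split the infinite part
  set t₂ : InfiniteAdeleRing K := fun w => if w = w₀ then c.1 w else 0 with ht₂
  have ht₂' : ∀ w, w ≠ w₀ → t₂ w = 0 := by
    intro w hw
    simp [ht₂, hw]
  have ht₂0 : t₂ w₀ = c.1 w₀ := by simp [ht₂]
  have hsplit : c.1 = (c.1 - t₂) + t₂ := by ring
  rw [hsplit, infA_add, AddChar.map_add_eq_mul, hloc t₂ ht₂', mul_one]
  apply hrV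
  intro w
  by_cases hw : w = w₀
  · subst hw
    have : (c.1 - t₂) w = c.1 w - t₂ w := rfl
    rw [this, ht₂0, sub_self, norm_zero]
    exact hr
  · have h1 : (c.1 - t₂) w = c.1 w - t₂ w := rfl
    rw [h1, ht₂' w hw, sub_zero, hcdef, embA_mul_fst, norm_mul, norm_embA_fst, map_mul]
    exact radius_aux hr hC hD (AbsoluteValue.nonneg _ _) (le_infSize K _ w)
      (AbsoluteValue.nonneg _ _) (hy w hw).le (norm_nonneg _) (hb.1 w)

/-- the finite adele supported at `v₀` with component `x`. -/
def singleFin (v₀ : HeightOneSpectrum (𝓞 K)) (x : v₀.adicCompletion K) :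
    FiniteAdeleRing (𝓞 K) K :=
  letI : DecidableEq (HeightOneSpectrum (𝓞 K)) := Classical.decEq _
  RestrictedProduct.single (fun v : HeightOneSpectrum (𝓞 K) => v.adicCompletionIntegers K) v₀ x

theorem singleFin_same (v₀ : HeightOneSpectrum (𝓞 K)) (x : v₀.adicCompletion K) :
    singleFin K v₀ x v₀ = x := by
  unfold singleFin
  letI : DecidableEq (HeightOneSpectrum (𝓞 K)) := Classical.decEq _
  exact RestrictedProduct.single_eq_same
    (fun v : HeightOneSpectrum (𝓞 K) => v.adicCompletionIntegers K) v₀ x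

theorem singleFin_of_ne (v₀ : HeightOneSpectrum (𝓞 K)) (x : v₀.adicCompletion K)
    (v : HeightOneSpectrum (𝓞 K)) (hv : v ≠ v₀) : singleFin K v₀ x v = 0 := by
  unfold singleFin
  letI : DecidableEq (HeightOneSpectrum (𝓞 K)) := Classical.decEq _
  exact RestrictedProduct.single_eq_of_ne
    (fun v : HeightOneSpectrum (𝓞 K) => v.adicCompletionIntegers K) x hv

/-- **Local non-triviality at a finite place.**  A continuous character of the adeles which is
trivial on `K` and on the adeles supported at the finite place `v₀` is trivial. -/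
theorem trivial_of_trivial_at_fin (ψ : AddChar (AdeleRing (𝓞 K) K) Circle) (hc : Continuous ψ)
    (htriv : ∀ ξ : K, ψ (embA K ξ) = 1) (v₀ : HeightOneSpectrum (𝓞 K))
    (hloc : ∀ f : FiniteAdeleRing (𝓞 K) K, (∀ v, v ≠ v₀ → f v = 0) → ψ (finA K f) = 1)
    (a : AdeleRing (𝓞 K) K) : ψ a = 1 := by
  classical
  apply eq_one_of_forall_mem_nhds
  intro V hV
  obtain ⟨d, hd0, hd⟩ := exists_level K ψ hc
  obtain ⟨r, hr, hrV⟩ := exists_radius K ψ hc V hV
  have hC : 0 ≤ Fermat.Agent.LT.H767.infBound K := Fermat.Agent.LT.H767.infBound_nonneg K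
  set C := Fermat.Agent.LT.H767.infBound K with hCdef
  set D := infSize K (d : K) with hDdef
  have hD : 0 ≤ D := infSize_nonneg K _
  have hε : 0 < r / ((C + 1) * (D + 1)) := by positivity
  obtain ⟨y, hyK, hyw, hyv⟩ := exists_small_away_fin K v₀ _ hε
  have hdK : (d : K) ≠ 0 := by simpa using hd0
  obtain ⟨b, hb, hab⟩ := exists_box_rep K ψ htriv ((d : K) * y) (mul_ne_zero hdK hyK) a
  rw [hab, map_split]
  set c := embA K ((d : K) * y) * b with hcdef
  -- the finite part: split off the component at `v₀`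
  have hfin : ψ (finA K c.2) = 1 := by
    set f₂ : FiniteAdeleRing (𝓞 K) K := singleFin K v₀ (c.2 v₀) with hf₂
    have hsplit : c.2 = (c.2 - f₂) + f₂ := by ring
    rw [hsplit, finA_add, AddChar.map_add_eq_mul,
      hloc f₂ (fun v hv => singleFin_of_ne K v₀ _ v hv), mul_one]
    apply hd
    intro v
    have h0 : (c.2 - f₂) v = c.2 v - f₂ v := rfl
    by_cases hv : v = v₀
    · subst hv
      rw [h0, hf₂, singleFin_same, sub_self, norm_zero]
      exact norm_nonneg _
    · rw [h0, hf₂, singleFin_of_ne K v₀ _ v hv, sub_zero, hcdef, embA_mul_snd, norm_mul]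
      have h1 : loc K v ((d : K) * y) = loc K v (d : K) * loc K v y := by simp [loc]
      rw [h1, norm_mul]
      have h2 : ‖b.2 v‖ ≤ 1 := by
        rw [Valued.toNormedField.norm_le_one_iff]
        exact (mem_adicCompletionIntegers _ _ _).mp (hb.2 v)
      have h3 := hyv v hv
      calc ‖loc K v (d : K)‖ * ‖loc K v y‖ * ‖b.2 v‖
          ≤ ‖loc K v (d : K)‖ * 1 * 1 := by gcongr
        _ = _ := by ring
  rw [hfin, mul_one]
  apply hrV
  intro w
  rw [hcdef, embA_mul_fst, norm_mul, norm_embA_fst, map_mul]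
  exact radius_aux hr hC hD (AbsoluteValue.nonneg _ _) (le_infSize K _ w)
    (AbsoluteValue.nonneg _ _) (hyw w).le (norm_nonneg _) (hb.1 w)

end Fermat.Agent.LT.T3.H127
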