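import Mathlib
import Fermat.Agent.LT.T3.H127.Nondeg

/-!
# Row LT, tower T3, leaf T3.03 (helper127): `K^⊥ = K`

OFF-MAIN.

* `eq_zero_of_forall_mul` : a non-trivial continuous character of `𝔸_K`, trivial on `K`, is
  non-degenerate: `ψ (x a) = 1` for all `a` implies `x = 0`.
-/

set_option autoImplicit false

open NumberField IsDedekindDomain IsDedekindDomain.HeightOneSpectrum

noncomputable section

namespace Fermat.Agent.LT.T3.H127

variable (K : Type) [Field K] [NumberField K]

theorem mul_infA (x : AdeleRing (𝓞 K) K) (s : InfiniteAdeleRing K) :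
    x * infA K s = infA K (x.1 * s) :=
  Prod.ext rfl (show x.2 * (0 : FiniteAdeleRing (𝓞 K) K) = 0 from mul_zero _)

theorem mul_finA (x : AdeleRing (𝓞 K) K) (g : FiniteAdeleRing (𝓞 K) K) :
    x * finA K g = finA K (x.2 * g) :=
  Prod.ext (show x.1 * (0 : InfiniteAdeleRing K) = 0 from mul_zero _) rfl

/-- **Non-degeneracy.** -/
theorem eq_zero_of_forall_mul (ψ : AddChar (AdeleRing (𝓞 K) K) Circle) (hc : Continuous ψ)
    (htriv : ∀ ξ : K, ψ (embA K ξ) = 1) (hnt : ∃ a : AdeleRing (𝓞 K) K, ψ a ≠ 1)
    (x : AdeleRing (𝓞 K) K) (hx : ∀ a : AdeleRing (𝓞 K) K, ψ (x * a) = 1) : x = 0 := by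
  classical
  obtain ⟨a₀, ha₀⟩ := hnt
  have h1 : ∀ w₀ : InfinitePlace K, x.1 w₀ = 0 := by
    intro w₀
    by_contra hne
    apply ha₀
    apply trivial_of_trivial_at_inf K ψ hc htriv w₀
    intro t ht
    set s : InfiniteAdeleRing K := fun w => if w = w₀ then (x.1 w)⁻¹ * t w else 0 with hs
    have hts : t = x.1 * s := by
      funext w
      have : (x.1 * s) w = x.1 w * s w := rfl
      rw [this]
      by_cases hw : w = w₀
      · subst hw
        simp only [hs, if_true]
        rw [← mul_assoc, mul_inv_cancel₀ hne, one_mul]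
      · simp only [hs, if_neg hw, mul_zero]
        exact ht w hw
    rw [hts, ← mul_infA]
    exact hx _
  have h2 : ∀ v₀ : HeightOneSpectrum (𝓞 K), x.2 v₀ = 0 := by
    intro v₀
    by_contra hne
    apply ha₀
    apply trivial_of_trivial_at_fin K ψ hc htriv v₀
    intro f hf
    set g : FiniteAdeleRing (𝓞 K) K := singleFin K v₀ ((x.2 v₀)⁻¹ * f v₀) with hg
    have hfg : f = x.2 * g := by
      apply FiniteAdeleRing.ext
      intro v
      have : (x.2 * g) v = x.2 v * g v := rfl
      rw [this]
      by_cases hv : v = v₀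
      · subst hv
        rw [hg, singleFin_same, ← mul_assoc, mul_inv_cancel₀ hne, one_mul]
      · rw [hg, singleFin_of_ne K v₀ _ v hv, mul_zero]
        exact hf v hv
    rw [hfg, ← mul_finA]
    exact hx _
  refine Prod.ext (funext h1) ?_
  apply FiniteAdeleRing.ext
  exact h2

/-! ## Discreteness of `K^⊥` -/

/-- The open box `{‖x_w‖ < ρ (w ∣ ∞), x_v ∈ 𝒪_v (v finite)}`. -/
def smallBox (ρ : ℝ) : Set (AdeleRing (𝓞 K) K) :=
  {x | (∀ w : InfinitePlace K, ‖x.1 w‖ < ρ) ∧
    ∀ v : HeightOneSpectrum (𝓞 K), x.2 v ∈ v.adicCompletionIntegers K}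

theorem isOpen_smallBox (ρ : ℝ) : IsOpen (smallBox K ρ) := by
  have h1 : IsOpen {x : InfiniteAdeleRing K | ∀ v : InfinitePlace K, ‖x v‖ < ρ} := by
    have : {x : InfiniteAdeleRing K | ∀ v : InfinitePlace K, ‖x v‖ < ρ}
        = ⋂ v : InfinitePlace K, (fun x : InfiniteAdeleRing K => x v) ⁻¹' {y | ‖y‖ < ρ} := by
      ext x; simp
    rw [this]
    refine isOpen_iInter_of_finite fun v => ?_
    exact (isOpen_lt continuous_norm continuous_const).preimage (continuous_apply v)
  have h2 : IsOpen {f : FiniteAdeleRing (𝓞 K) K |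
      ∀ v : HeightOneSpectrum (𝓞 K), f v ∈ v.adicCompletionIntegers K} :=
    RestrictedProduct.isOpen_forall_mem (fun v => Valued.isOpen_valuationSubring _)
  exact h1.prod h2

theorem zero_mem_smallBox {ρ : ℝ} (hρ : 0 < ρ) : (0 : AdeleRing (𝓞 K) K) ∈ smallBox K ρ := by
  refine ⟨fun v => ?_, fun v => ?_⟩
  · change ‖(0 : v.Completion)‖ < ρ
    simpa using hρ
  · exact zero_mem _

theorem mul_embA_fst (x : AdeleRing (𝓞 K) K) (k : K) :
    (x * embA K k).1 = x.1 * algebraMap K (InfiniteAdeleRing K) k := rfl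

theorem mul_embA_snd (x : AdeleRing (𝓞 K) K) (k : K) :
    (x * embA K k).2 = x.2 * algebraMap K (FiniteAdeleRing (𝓞 K) K) k := rfl

theorem norm_algebraMap_inf (k : K) (w : InfinitePlace K) :
    ‖(algebraMap K (InfiniteAdeleRing K) k) w‖ = w k := norm_embA_fst K k w

theorem radius_aux2 {r M x y : ℝ} (hM : 0 ≤ M) (hx0 : 0 ≤ x)
    (hx : x < r / (M + 1)) (hy : y ≤ M) : x * y < r := by
  have hpos : 0 < M + 1 := by positivity
  rw [lt_div_iff₀ hpos] at hx
  nlinarith

/-- **Discreteness of `K^⊥`.**  There is an open neighbourhood of `0` in `𝔸_K` which meets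
`K^⊥` only in `0`. -/
theorem exists_isOpen_perp (ψ : AddChar (AdeleRing (𝓞 K) K) Circle) (hc : Continuous ψ)
    (htriv : ∀ ξ : K, ψ (embA K ξ) = 1) (hnt : ∃ a : AdeleRing (𝓞 K) K, ψ a ≠ 1) :
    ∃ U : Set (AdeleRing (𝓞 K) K), IsOpen U ∧ (0 : AdeleRing (𝓞 K) K) ∈ U ∧
      ∀ x ∈ U, (∀ ξ : K, ψ (x * embA K ξ) = 1) → x = 0 := by
  classical
  obtain ⟨d, hd0, hd⟩ := exists_level K ψ hc
  obtain ⟨r, hr, hrV⟩ := exists_radius K ψ hc rightHalf
    (isOpen_rightHalf.mem_nhds one_mem_rightHalf)
  have hdK : (d : K) ≠ 0 := by simpa using hd0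
  let b := RingOfIntegers.basis K
  set M : ℝ := ∑ i, infSize K ((d : K) * (b i : K)) with hM
  have hM0 : 0 ≤ M := Finset.sum_nonneg fun i _ => infSize_nonneg K _
  have hρ : 0 < r / (M + 1) := by positivity
  refine ⟨smallBox K (r / (M + 1)), isOpen_smallBox K _, zero_mem_smallBox K hρ, ?_⟩
  intro x hxU hx
  apply eq_zero_of_forall_mul K ψ hc htriv hnt
  -- the character `g (s) = ψ (x_∞ s)` of `K_∞`
  set g : InfiniteAdeleRing K → Circle := fun s => ψ (infA K (x.1 * s)) with hg
  have g_add : ∀ s s' : InfiniteAdeleRing K, g (s + s') = g s * g s' := by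
    intro s s'
    simp only [hg]
    rw [mul_add, infA_add, AddChar.map_add_eq_mul]
  have g_sub : ∀ s s' : InfiniteAdeleRing K, g s = g (s - s') * g s' := by
    intro s s'
    rw [← g_add, sub_add_cancel]
  -- the finite part at a multiple of `d`
  have hfin_level : ∀ k : K, (∀ v, ‖loc K v k‖ ≤ ‖loc K v (d : K)‖) →
      ψ (finA K (x.2 * algebraMap K (FiniteAdeleRing (𝓞 K) K) k)) = 1 := by
    intro k hk
    apply hd
    refine mul_mem_levelSet K ?_ hxU.2
    intro v
    exact hk v
  have hsplit : ∀ k : K, g (algebraMap K (InfiniteAdeleRing K) k)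
      * ψ (finA K (x.2 * algebraMap K (FiniteAdeleRing (𝓞 K) K) k)) = 1 := by
    intro k
    have := hx k
    rw [map_split, mul_embA_fst, mul_embA_snd] at this
    exact this
  have hg_level : ∀ k : K, (∀ v, ‖loc K v k‖ ≤ ‖loc K v (d : K)‖) →
      g (algebraMap K (InfiniteAdeleRing K) k) = 1 := by
    intro k hk
    have := hsplit k
    rw [hfin_level k hk, mul_one] at this
    exact this
  -- the subgroup `N`
  let N : AddSubgroup K :=
    { carrier := {η | g (algebraMap K (InfiniteAdeleRing K) η) = 1}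
      zero_mem' := by
        change g (algebraMap K (InfiniteAdeleRing K) 0) = 1
        simp only [hg]
        rw [map_zero, mul_zero, infA_zero, AddChar.map_zero_eq_one]
      add_mem' := by
        intro p q hp hq
        change g (algebraMap K (InfiniteAdeleRing K) (p + q)) = 1
        rw [map_add, g_add, hp, hq, mul_one]
      neg_mem' := by
        intro p hp
        change g (algebraMap K (InfiniteAdeleRing K) (-p)) = 1
        have h1 := g_add (algebraMap K (InfiniteAdeleRing K) (-p))
          (algebraMap K (InfiniteAdeleRing K) p)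
        rw [← map_add, neg_add_cancel, hp, mul_one] at h1
        rw [← h1]
        change g (algebraMap K (InfiniteAdeleRing K) 0) = 1
        simp only [hg]
        rw [map_zero, mul_zero, infA_zero, AddChar.map_zero_eq_one] }
  have hNmem : ∀ η : K, η ∈ N ↔ g (algebraMap K (InfiniteAdeleRing K) η) = 1 := fun η => Iff.rfl
  -- dyadic descent along the basis
  have hdy : ∀ (i : Module.Free.ChooseBasisIndex ℤ (𝓞 K)) (k : ℕ),
      (d : K) * (b i : K) / 2 ^ k ∈ N := by
    intro i k
    induction k with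
    | zero =>
      rw [pow_zero, div_one, hNmem]
      apply hg_level
      intro v
      have h1 : loc K v ((d : K) * (b i : K)) = loc K v (d : K) * loc K v (b i : K) := by
        simp [loc]
      rw [h1, norm_mul]
      exact mul_le_of_le_one_right (norm_nonneg _) (norm_loc_int_le_one K v _)
    | succ k ih =>
      rw [hNmem] at ih ⊢
      apply eq_one_of_sq_of_mem_rightHalf
      · rw [← g_add, ← map_add, ← ih]
        congr 2
        rw [pow_succ]
        field_simp
        ring
      · apply hrV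
        intro w
        have h1 : (x.1 * algebraMap K (InfiniteAdeleRing K) ((d : K) * (b i : K) / 2 ^ (k + 1))) w
            = x.1 w * (algebraMap K (InfiniteAdeleRing K) ((d : K) * (b i : K) / 2 ^ (k + 1))) w :=
          rfl
        rw [h1, norm_mul, norm_algebraMap_inf]
        refine radius_aux2 hM0 (norm_nonneg _) (hxU.1 w) ?_
        rw [map_div₀, map_pow]
        have h2 : (1 : ℝ) ≤ (w (2 : K)) ^ (k + 1) := by
          apply one_le_pow₀
          have : w (2 : K) = 2 := by
            rw [← InfinitePlace.norm_embedding_eq, map_ofNat]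
            simp
          rw [this]; norm_num
        calc w ((d : K) * (b i : K)) / (w (2 : K)) ^ (k + 1)
            ≤ w ((d : K) * (b i : K)) := div_le_self (AbsoluteValue.nonneg _ _) h2
          _ ≤ infSize K ((d : K) * (b i : K)) := le_infSize K _ w
          _ ≤ M := Finset.single_le_sum (f := fun i => infSize K ((d : K) * (b i : K)))
              (fun i _ => infSize_nonneg K _) (Finset.mem_univ i)
  -- `N` contains `d 𝓞_K [1/2]`
  have hdyO : ∀ (a : 𝓞 K) (k : ℕ), (d : K) * (a : K) / 2 ^ k ∈ N := by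
    intro a k
    have ha : (a : K) = ∑ i, (b.repr a i) • (b i : K) := by
      conv_lhs => rw [← b.sum_repr a]
      simp [zsmul_eq_mul]
    have h1 : (d : K) * (a : K) / 2 ^ k = ∑ i, (b.repr a i) • ((d : K) * (b i : K) / 2 ^ k) := by
      rw [ha, Finset.mul_sum, Finset.sum_div]
      refine Finset.sum_congr rfl fun i _ => ?_
      simp only [zsmul_eq_mul]
      ring
    rw [h1]
    exact AddSubgroup.sum_mem _ fun i _ => AddSubgroup.zsmul_mem _ (hdy i k) _
  -- `g` is trivial
  have hg1 : ∀ s : InfiniteAdeleRing K, g s = 1 := by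
    intro s
    apply eq_one_of_forall_mem_nhds
    intro V hV
    obtain ⟨r', hr', hr'V⟩ := exists_radius K ψ hc V hV
    have hC : 0 ≤ Fermat.Agent.LT.H767.infBound K := Fermat.Agent.LT.H767.infBound_nonneg K
    set C := Fermat.Agent.LT.H767.infBound K with hCdef
    set D := infSize K (d : K) with hDdef
    have hD : 0 ≤ D := infSize_nonneg K _
    set ρ := r / (M + 1) with hρdef
    obtain ⟨n, hn⟩ := exists_pow_lt_of_lt_one (show 0 < r' / (ρ * D * C + 1) by positivity)
      (show (1 / 2 : ℝ) < 1 by norm_num)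
    obtain ⟨a, ha⟩ := Fermat.Agent.LT.H767.exists_int_sub_norm_le K
      (algebraMap K (InfiniteAdeleRing K) (2 ^ n / (d : K)) * s)
    have hη : (d : K) * (a : K) / 2 ^ n ∈ N := hdyO a n
    rw [hNmem] at hη
    rw [g_sub s (algebraMap K (InfiniteAdeleRing K) ((d : K) * (a : K) / 2 ^ n)), hη, mul_one]
    apply hr'V
    intro w
    have h2K : (2 : K) ^ n ≠ 0 := pow_ne_zero _ two_ne_zero
    have e1 : (x.1 * (s - algebraMap K (InfiniteAdeleRing K) ((d : K) * (a : K) / 2 ^ n))) w
        = x.1 w * ((algebraMap K (InfiniteAdeleRing K) ((d : K) / 2 ^ n)) w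
          * ((algebraMap K (InfiniteAdeleRing K) (2 ^ n / (d : K)) * s) w
            - algebraMap K w.Completion (algebraMap (𝓞 K) K a))) := by
      have e2 : s - algebraMap K (InfiniteAdeleRing K) ((d : K) * (a : K) / 2 ^ n)
          = algebraMap K (InfiniteAdeleRing K) ((d : K) / 2 ^ n)
            * (algebraMap K (InfiniteAdeleRing K) (2 ^ n / (d : K)) * s
              - algebraMap K (InfiniteAdeleRing K) (a : K)) := by
        have e3 : algebraMap K (InfiniteAdeleRing K) ((d : K) / 2 ^ n)
            * algebraMap K (InfiniteAdeleRing K) (2 ^ n / (d : K)) = 1 := by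
          rw [← map_mul]
          have : (d : K) / 2 ^ n * (2 ^ n / (d : K)) = 1 := by field_simp
          rw [this, map_one]
        have e4 : algebraMap K (InfiniteAdeleRing K) ((d : K) * (a : K) / 2 ^ n)
            = algebraMap K (InfiniteAdeleRing K) ((d : K) / 2 ^ n)
              * algebraMap K (InfiniteAdeleRing K) (a : K) := by
          have : (d : K) * (a : K) / 2 ^ n = (d : K) / 2 ^ n * (a : K) := by ring
          rw [this, map_mul]
        rw [e4, mul_sub, ← mul_assoc, e3, one_mul]
      rw [e2]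
      rfl
    rw [e1, norm_mul, norm_mul, norm_algebraMap_inf]
    have h3 : w ((d : K) / 2 ^ n) = w (d : K) * (1 / 2) ^ n := by
      rw [map_div₀, map_pow]
      have : w (2 : K) = 2 := by
        rw [← InfinitePlace.norm_embedding_eq, map_ofNat]
        simp
      rw [this, one_div, inv_pow, div_eq_mul_inv]
    rw [h3]
    have h4 := ha w
    have h5 : ‖x.1 w‖ ≤ ρ := (hxU.1 w).le
    have h6 : w (d : K) ≤ D := le_infSize K _ w
    have h7 : (0 : ℝ) ≤ (1 / 2) ^ n := by positivity
    calc ‖x.1 w‖ * (w (d : K) * (1 / 2) ^ n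
          * ‖(algebraMap K (InfiniteAdeleRing K) (2 ^ n / (d : K)) * s) w
            - algebraMap K w.Completion (algebraMap (𝓞 K) K a)‖)
        ≤ ρ * (D * (1 / 2) ^ n * C) := by
          gcongr
      _ = (ρ * D * C) * (1 / 2) ^ n := by ring
      _ ≤ (ρ * D * C + 1) * (1 / 2) ^ n := by
          gcongr
          linarith
      _ < r' := by
          rw [lt_div_iff₀ (by positivity)] at hn
          linarith
  -- the finite part
  have hf1 : ∀ y : FiniteAdeleRing (𝓞 K) K, ψ (finA K (x.2 * y)) = 1 := by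
    intro y
    obtain ⟨k, hk⟩ := exists_sub_mem_levelSet K y d hd0
    have e1 : x.2 * y = x.2 * (y - algebraMap K (FiniteAdeleRing (𝓞 K) K) k)
        + x.2 * algebraMap K (FiniteAdeleRing (𝓞 K) K) k := by ring
    rw [e1, finA_add, AddChar.map_add_eq_mul, hd _ (mul_mem_levelSet K hk hxU.2), one_mul]
    have := hsplit k
    rw [hg1, one_mul] at this
    exact this
  intro a
  rw [map_split]
  have e1 : (x * a).1 = x.1 * a.1 := rfl
  have e2 : (x * a).2 = x.2 * a.2 := rfl
  rw [e1, e2, hf1, mul_one]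
  exact hg1 a.1

end Fermat.Agent.LT.T3.H127
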