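import Mathlib
import Fermat.Agent.LT.T3.Spec
import Fermat.Agent.LT.T3.H127.Perp

/-!
# Row LT, tower T3, leaf T3.03 (helper127): `PerpC K`, UNCONDITIONAL

OFF-MAIN.  `perpC127 : Fermat.Agent.LT.T3.PerpC K` for every number field `K`: for EVERY standard
character `ψ` of `𝔸_K` (continuous, trivial on `K`, non-trivial), `ψ (x K) = 1` implies `x ∈ K`
(Tate's thesis, Theorem 4.1.4).

Proof without Pontryagin duality and without self-duality (T3.02 is NOT used):
`K^⊥` is a closed `K`-subspace of `𝔸_K` containing `K`; it is discrete (`exists_isOpen_perp`: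
no small subgroups, dyadic descent at infinity, strong approximation via Minkowski in the dual
form `trivial_of_trivial_at_inf/fin`); `𝔸_K = K + adeleBox` with `adeleBox` compact (helper767);
hence `K^⊥ ∩ adeleBox` is finite, while `x ∈ K^⊥ ∖ K` would give the infinitely many distinct
elements `η x - k_η`, `η ∈ K`.
-/

set_option autoImplicit false

open NumberField IsDedekindDomain IsDedekindDomain.HeightOneSpectrum

noncomputable section

namespace Fermat.Agent.LT.T3.H127

variable (K : Type) [Field K] [NumberField K]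

/-- `K^⊥` as an additive subgroup of the adeles. -/
def perp (ψ : AddChar (AdeleRing (𝓞 K) K) Circle) : AddSubgroup (AdeleRing (𝓞 K) K) where
  carrier := {y | ∀ ξ : K, ψ (y * embA K ξ) = 1}
  zero_mem' := by
    intro ξ
    rw [zero_mul, AddChar.map_zero_eq_one]
  add_mem' := by
    intro p q hp hq ξ
    rw [add_mul, AddChar.map_add_eq_mul, hp ξ, hq ξ, mul_one]
  neg_mem' := by
    intro p hp ξ
    rw [neg_mul, AddChar.map_neg_eq_inv, hp ξ, inv_one]

theorem mem_perp (ψ : AddChar (AdeleRing (𝓞 K) K) Circle) (y : AdeleRing (𝓞 K) K) :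
    y ∈ perp K ψ ↔ ∀ ξ : K, ψ (y * embA K ξ) = 1 := Iff.rfl

theorem isClosed_perp (ψ : AddChar (AdeleRing (𝓞 K) K) Circle) (hc : Continuous ψ) :
    IsClosed (perp K ψ : Set (AdeleRing (𝓞 K) K)) := by
  have : (perp K ψ : Set (AdeleRing (𝓞 K) K))
      = ⋂ ξ : K, (fun y : AdeleRing (𝓞 K) K => ψ (y * embA K ξ)) ⁻¹' {1} := by
    ext y
    simp only [Set.mem_iInter, Set.mem_preimage, Set.mem_singleton_iff]
    exact Iff.rfl
  rw [this]
  refine isClosed_iInter fun ξ => ?_
  exact isClosed_singleton.preimage (hc.comp (continuous_id.mul continuous_const))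

theorem mul_mem_perp (ψ : AddChar (AdeleRing (𝓞 K) K) Circle) {y : AdeleRing (𝓞 K) K}
    (hy : y ∈ perp K ψ) (η : K) : embA K η * y ∈ perp K ψ := by
  intro ξ
  have : embA K η * y * embA K ξ = y * embA K (η * ξ) := by
    rw [map_mul]; ring
  rw [this]
  exact hy _

theorem embA_mem_perp (ψ : AddChar (AdeleRing (𝓞 K) K) Circle)
    (htriv : ∀ ξ : K, ψ (embA K ξ) = 1) (k : K) : embA K k ∈ perp K ψ := by
  intro ξ
  rw [← map_mul]
  exact htriv _

theorem discreteTopology_perp (ψ : AddChar (AdeleRing (𝓞 K) K) Circle) (hc : Continuous ψ)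
    (htriv : ∀ ξ : K, ψ (embA K ξ) = 1) (hnt : ∃ a : AdeleRing (𝓞 K) K, ψ a ≠ 1) :
    DiscreteTopology (perp K ψ) := by
  obtain ⟨U, hU, h0, hUp⟩ := exists_isOpen_perp K ψ hc htriv hnt
  apply discreteTopology_of_isOpen_singleton_zero
  have : ({0} : Set (perp K ψ)) = (Subtype.val : perp K ψ → AdeleRing (𝓞 K) K) ⁻¹' U := by
    ext ⟨y, hy⟩
    simp only [Set.mem_singleton_iff, Set.mem_preimage]
    constructor
    · intro h
      have : y = 0 := congrArg Subtype.val h
      rw [this]
      exact h0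
    · intro h
      exact Subtype.ext (hUp y h hy)
  rw [this]
  exact hU.preimage continuous_subtype_val

/-- **T3.03 = `PerpC`** (Tate's thesis, Theorem 4.1.4), for every number field and EVERY standard
character. -/
theorem perpC127 : Fermat.Agent.LT.T3.PerpC K := by
  intro ψ hψ x hx
  have hc : Continuous ψ := hψ.cont
  have htriv : ∀ ξ : K, ψ (embA K ξ) = 1 := hψ.triv
  have hnt : ∃ a : AdeleRing (𝓞 K) K, ψ a ≠ 1 := hψ.nontriv
  by_contra hne
  have hne' : ∀ ξ₀ : K, x ≠ embA K ξ₀ := fun ξ₀ h => hne ⟨ξ₀, h⟩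
  have hxp : x ∈ perp K ψ := hx
  have hdisc := discreteTopology_perp K ψ hc htriv hnt
  -- the finite set `K^⊥ ∩ adeleBox`
  have hcomp : IsCompact ((Subtype.val : perp K ψ → AdeleRing (𝓞 K) K) ⁻¹'
      (Fermat.Agent.LT.H767.adeleBox K)) :=
    (isClosed_perp K ψ hc).isClosedEmbedding_subtypeVal.isCompact_preimage
      (Fermat.Agent.LT.H767.isCompact_adeleBox K)
  have hfin : ((Subtype.val : perp K ψ → AdeleRing (𝓞 K) K) ⁻¹'
      (Fermat.Agent.LT.H767.adeleBox K)).Finite := hcomp.finite_of_discrete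
  -- the representatives
  choose κ hκ using fun η : K => Fermat.Agent.LT.H767.exists_sub_mem_adeleBox K (embA K η * x)
  have hmem : ∀ η : K, embA K η * x - embA K (κ η) ∈ perp K ψ := fun η =>
    (perp K ψ).sub_mem (mul_mem_perp K ψ hxp η) (embA_mem_perp K ψ htriv _)
  let φ : K → ((Subtype.val : perp K ψ → AdeleRing (𝓞 K) K) ⁻¹'
      (Fermat.Agent.LT.H767.adeleBox K)) :=
    fun η => ⟨⟨embA K η * x - embA K (κ η), hmem η⟩, hκ η⟩
  have hinj : Function.Injective φ := by
    intro η η' h
    by_contra hηη'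
    have h1 : embA K η * x - embA K (κ η) = embA K η' * x - embA K (κ η') :=
      Subtype.ext_iff.mp (Subtype.ext_iff.mp h)
    have h2 : embA K (η - η') * x = embA K (κ η - κ η') := by
      rw [map_sub, map_sub, sub_mul]
      linear_combination h1
    have h3 : η - η' ≠ 0 := sub_ne_zero.mpr hηη'
    apply hne' ((η - η')⁻¹ * (κ η - κ η'))
    have h4 : embA K (η - η')⁻¹ * embA K (η - η') = 1 := by
      rw [← map_mul, inv_mul_cancel₀ h3, map_one]
    calc x = (embA K (η - η')⁻¹ * embA K (η - η')) * x := by rw [h4, one_mul]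
      _ = embA K (η - η')⁻¹ * (embA K (η - η') * x) := by ring
      _ = _ := by rw [h2, ← map_mul]
  have hF : Finite ((Subtype.val : perp K ψ → AdeleRing (𝓞 K) K) ⁻¹'
      (Fermat.Agent.LT.H767.adeleBox K)) := hfin
  have hFK : Finite K := Finite.of_injective φ hinj
  exact not_finite K

end Fermat.Agent.LT.T3.H127
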